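import Fermat.Prelude.Def_FLTPrelim_ModularRep
import Fermat.Prelude.Def_FreyPackage_IsConductorLevel
import Fermat.Prelude.Def_WeierstrassCurve_Mlc1RowStatement
import Fermat.Agent.S04.Wiring

set_option autoImplicit false

/-!
Conditional wiring for statement S06: if the integral Frey curve is modular of exact
conductor level (the conclusion shape of statement S59), then the Frey package has a
conductor level at which its mod-`p` representation is modular.
-/

namespace Fermat.Agent.S06

open WeierstrassCurve

/-- A prime dividing the discriminant of the integral Frey curve divides `a * b * c`. -/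
lemma prime_dvd_abc_of_dvd_Δ (P : FreyPackage) {q : ℕ} (hq : q.Prime)
    (h : (q : ℤ) ∣ P.freyCurveInt.Δ) : (q : ℤ) ∣ P.a * P.b * P.c := by
  have hq' : Prime (q : ℤ) := Nat.prime_iff_prime_int.mp hq
  rw [Fermat.Agent.S04.freyCurveInt_Δ] at h
  have h2 := Fermat.Agent.S04.sixteen_mul_a₄ P
  rcases hq'.dvd_or_dvd h with h | h
  · have hβ := hq'.dvd_of_dvd_pow h
    have hAB : (q : ℤ) ∣ P.a ^ P.p * P.b ^ P.p := by
      have : (q : ℤ) ∣ 16 * P.freyCurveInt.a₄ := hβ.mul_left _
      rw [h2] at this
      exact (dvd_neg.mp this)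
    rcases hq'.dvd_or_dvd hAB with hA | hB
    · exact ((hq'.dvd_of_dvd_pow hA).mul_right _).mul_right _
    · exact ((hq'.dvd_of_dvd_pow hB).mul_left _).mul_right _
  · exact (hq'.dvd_of_dvd_pow (hq'.dvd_of_dvd_pow h)).mul_left _

/-- The integral Frey curve is an integral model of the rational Frey curve. -/
lemma freyCurveInt_isIntegralModelOf (P : FreyPackage) :
    P.freyCurveInt.IsIntegralModelOf P.freyCurve :=
  ⟨1, by rw [one_smul, Fermat.Agent.S04.freyCurveInt_map]⟩

/-- Exact modularity of an integral model at level `N` gives the residual congruence at any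
maximal ideal over `p`. -/
lemma modularRepOfLevel_of_isModularModelOfLevel (P : FreyPackage) {W : WeierstrassCurve ℤ}
    (hW : W.IsIntegralModelOf P.freyCurve) {N : ℕ} (h : W.IsModularModelOfLevel N) :
    P.ModularRepOfLevel N := by
  obtain ⟨f, hf, hfa⟩ := h
  obtain ⟨𝔪, h𝔪, hp𝔪⟩ := FLTPrelim.exists_maximalIdeal_natCast_prime_mem P.pp
  refine ⟨f, W, 𝔪, hf, hW, h𝔪, hp𝔪, ?_⟩
  intro ℓ hℓ hgood hℓN _
  refine ⟨((W.apOfModel ℓ : ℤ) : integralClosure ℤ ℂ), ?_, ?_⟩
  · rw [hfa ℓ hℓ hgood hℓN]
    simp
  · rw [sub_self]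
    exact 𝔪.zero_mem

/-- Wiring: exact-conductor-level modularity of the integral Frey curve gives S06. -/
theorem result_of_exactConductorLevel (P : FreyPackage)
    (h : Mlc1IsModularModelOfExactConductorLevel P.freyCurveInt) :
    ∃ N : ℕ, P.IsConductorLevel N ∧ P.ModularRepOfLevel N := by
  obtain ⟨N, hN, hsq, hiff, hmod⟩ := h
  refine ⟨N, ⟨hN, hsq, fun q hq hqN => ?_⟩, ?_⟩
  · exact prime_dvd_abc_of_dvd_Δ P hq ((hiff q hq).mp hqN)
  · exact modularRepOfLevel_of_isModularModelOfLevel P (freyCurveInt_isIntegralModelOf P) hmod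

/-- Wiring in statement shape: semistable modularity at exact conductor level (what S59
produces once residual modularity at 3 or 5 is available) gives S06. -/
theorem result_of_semistable_exactConductorLevel
    (h : ∀ W : WeierstrassCurve ℤ, W.Δ ≠ 0 → W.IsSemistableModel →
      Mlc1IsModularModelOfExactConductorLevel W)
    (P : FreyPackage) : ∃ N : ℕ, P.IsConductorLevel N ∧ P.ModularRepOfLevel N :=
  result_of_exactConductorLevel P
    (h P.freyCurveInt (Fermat.Agent.S04.freyCurveInt_Δ_ne_zero P)
      (Fermat.Agent.S04.freyCurveInt_isSemistableModel P))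

/-- Wiring: no Frey package (statement S03) trivially gives S06. -/
theorem result_of_no_frey (h : FreyPackage → False) (P : FreyPackage) :
    ∃ N : ℕ, P.IsConductorLevel N ∧ P.ModularRepOfLevel N :=
  (h P).elim

end Fermat.Agent.S06
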